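import Fermat.Agent.MazHS.LocDiv
import Fermat.Agent.MazH.Op

/-!
# LOCDIV from DIVJ
-/

set_option autoImplicit false
set_option linter.unusedSectionVars false
set_option synthInstance.maxHeartbeats 400000
set_option maxHeartbeats 400000

noncomputable section

namespace Fermat.Agent.MazHS

open ModularCurve AlgebraicCurve Fermat.Agent.Curves Fermat.Agent.GoodRed IsLocalRing
open Fermat.Agent.AnJac Fermat.Agent.S37 Fermat.Agent.MazFF Fermat.Agent.HeckeQ
open scoped Pointwise

local notation "Qbar" => AlgebraicClosure ℚ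
local notation "GQ" => Qbar ≃ₐ[ℚ] Qbar

/-- the `n`-torsion as a subgroup -/
def torS (J : Type*) [AddCommGroup J] (n : ℕ) : AddSubgroup J where
  carrier := {x | n • x = 0}
  zero_mem' := smul_zero n
  add_mem' {x y} hx hy := by
    change n • (x + y) = 0
    rw [nsmul_add, hx, hy, add_zero]
  neg_mem' {x} hx := by
    change n • (-x) = 0
    have hx' : n • x = 0 := hx
    rw [smul_neg, hx', neg_zero]

theorem mem_torS {J : Type*} [AddCommGroup J] {n : ℕ} {x : J} : x ∈ torS J n ↔ n • x = 0 := Iff.rfl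

/-- the cokernel of `φ - 1` on the `n`-torsion is killed by the number of `D`-torsion points, if the
fixed points are `D`-torsion -/
theorem exists_cobound {J : Type*} [AddCommGroup J] (φ : J →+ J) {n D : ℕ}
    [Finite (torS J n)] [Finite (torS J D)]
    (h : ∀ x, n • x = 0 → φ x = x → D • x = 0) {c : J} (hc : n • c = 0) :
    ∃ t : J, n • t = 0 ∧ (Nat.card (torS J D)) • c = φ t - t := by
  let T : torS J n →+ torS J n :=
    { toFun := fun x => ⟨φ x - x, by
        have hx : n • (x : J) = 0 := x.2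
        change n • (φ x - x) = 0
        rw [nsmul_sub, ← map_nsmul, hx, map_zero, sub_zero]⟩
      map_zero' := by
        apply Subtype.ext
        change φ 0 - 0 = 0
        rw [map_zero, sub_zero]
      map_add' := fun x y => by
        apply Subtype.ext
        change φ (x + y) - (x + y) = (φ x - x) + (φ y - y)
        rw [map_add]
        abel }
  have hT : ∀ x : torS J n, ((T x : torS J n) : J) = φ x - x := fun x => rfl
  -- the index of the range is the order of the kernel
  have h1 : T.range.index = Nat.card T.ker := by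
    have h2 := AddSubgroup.card_mul_index T.ker
    have h3 := AddSubgroup.card_mul_index T.range
    rw [AddSubgroup.index_ker] at h2
    have h4 : 0 < Nat.card T.range := Nat.card_pos
    have h5 : Nat.card T.range * T.range.index = Nat.card T.range * Nat.card T.ker := by
      rw [h3, ← h2, mul_comm]
    exact Nat.eq_of_mul_eq_mul_left h4 h5
  have h2 : Nat.card T.ker ∣ Nat.card (torS J D) := by
    let i : T.ker →+ torS J D :=
      { toFun := fun x => ⟨((x : torS J n) : J), by
          have hx : T x = 0 := x.2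
          have hx' := congrArg Subtype.val hx
          rw [hT] at hx'
          exact h _ (x : torS J n).2 (sub_eq_zero.mp hx')⟩
        map_zero' := rfl
        map_add' := fun x y => rfl }
    exact AddSubgroup.card_dvd_of_injective i (fun x y hxy => by
      apply Subtype.ext
      apply Subtype.ext
      exact congrArg (fun z : torS J D => (z : J)) hxy)
  have h3 : (Nat.card (torS J D)) • (⟨c, hc⟩ : torS J n) ∈ T.range := by
    obtain ⟨d, hd⟩ := h2
    rw [hd, ← h1, mul_nsmul]
    exact AddSubgroup.nsmul_mem _ (T.range.nsmul_index_mem _) d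
  obtain ⟨t, ht⟩ := h3
  refine ⟨t, t.2, ?_⟩
  have h4 := congrArg Subtype.val ht
  rw [hT] at h4
  exact h4.symm

theorem bezout_aux {J : Type*} [AddCommGroup J] {a b : ℕ} (h : a.Coprime b) {x k : J}
    (hx : a • x = b • k) : b • ((Nat.gcdA a b) • k + (Nat.gcdB a b) • x) = x := by
  have h1 := Nat.gcd_eq_gcd_ab a b
  rw [h] at h1
  have h3 : (a : ℤ) • x = (b : ℤ) • k := by rw [natCast_zsmul, natCast_zsmul, hx]
  have h2 : (b : ℤ) • ((Nat.gcdA a b) • k + (Nat.gcdB a b) • x) = ((1 : ℕ) : ℤ) • x := by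
    rw [h1, add_zsmul, zsmul_add, mul_comm (a : ℤ), mul_zsmul, h3, ← mul_zsmul, ← mul_zsmul,
      ← mul_zsmul, mul_comm (b : ℤ) (Nat.gcdA a b)]
  rw [natCast_zsmul, natCast_zsmul, one_nsmul] at h2
  exact h2

theorem locDiv_of_divJ (hdiv : Maz.DivJ) : Maz.LocDiv := by
  intro N _ ℓ A K hK s hs hsℓ P Q x hxPQ hx hfix m
  have hK' := hK
  obtain ⟨hℓ, hA, hN, M, hM, r, -, -, hKr⟩ := hK'
  have hpow : ∀ m, ¬ ℓ ∣ s ^ m := fun m h1 => hsℓ
    ((Nat.prime_dvd_prime_iff_eq hℓ hs).mp (hℓ.dvd_of_dvd_pow h1)).symm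
  have hinj : ∀ m, ∀ z ∈ K, s ^ m • z = 0 → z = 0 := by
    intro m z hz h
    rw [hKr] at hz
    exact redHom_inj r hℓ hA hN (hpow m) h hz
  obtain ⟨φ, hφ⟩ := Frob.exists_isFrobeniusAt_Qbar A hℓ hA
  obtain ⟨D, hD0, hD⟩ := finFrob_at hK hφ
  let Φ : JZero N →+ JZero N := DistribSMul.toAddMonoidHom (JZero N) φ
  have hΦ : ∀ z, Φ z = φ • z := fun z => rfl
  haveI hfin : ∀ n : ℕ, n ≠ 0 → Finite (torS (JZero N) n) := fun n hn =>
    (MazH.finite_tors (N := N) hn).to_subtype
  haveI := hfin D hD0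
  set C := Nat.card (torS (JZero N) D) with hC
  have hC0 : C ≠ 0 := Nat.card_pos.ne'
  obtain ⟨b, E, hE, hCD⟩ := Nat.exists_eq_pow_mul_and_not_dvd (mul_ne_zero hD0 hC0) s hs.ne_one
  -- divide by `s ^ (b + m)`
  obtain ⟨y, hy⟩ := hdiv N ℓ A K hK (s ^ (b + m)) (hpow _) P Q (hxPQ ▸ hx)
  rw [← hxPQ] at hy
  haveI := hfin (s ^ (b + m)) (pow_ne_zero _ hs.ne_zero)
  have hφx : φ • x = x := hfix φ hφ.mem_decompositionSubgroup
  obtain ⟨t, ht, hct⟩ := exists_cobound (n := s ^ (b + m)) (D := D) Φ (c := φ • y - y)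
    (fun z hz hz' => hinj (b + m) _ (hD z hz') (by rw [smul_comm, hz, smul_zero]))
    (by
      have h1 : s ^ (b + m) • (φ • y) = φ • x := by
        rw [← hy]
        exact (map_nsmul Φ _ y).symm
      rw [nsmul_sub, h1, hy, hφx, sub_self])
  -- the fixed element
  have hk : φ • (C • y - t) = C • y - t := by
    have h1 : Φ (C • y - t) = C • Φ y - Φ t := by rw [map_sub, map_nsmul]
    rw [hΦ, hΦ] at h1
    rw [h1]
    rw [nsmul_sub] at hct
    have h2 : C • (φ • y) = (Φ t - t) + C • y := by rw [← hct]; abel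
    rw [h2]
    abel
  have hkK := hD _ hk
  set k := D • (C • y - t) with hkdef
  have hsk : s ^ (b + m) • k = (D * C) • x := by
    rw [hkdef, smul_comm, nsmul_sub, ht, sub_zero, smul_comm _ C, hy, smul_smul]
  have hEx : E • x = s ^ m • k := by
    rw [← sub_eq_zero]
    refine hinj b _ (AddSubgroup.sub_mem _ (AddSubgroup.nsmul_mem _ hx _)
      (AddSubgroup.nsmul_mem _ hkK _)) ?_
    have h1 : s ^ b • (E • x) = s ^ (b + m) • k := by rw [smul_smul, ← hCD, hsk]
    rw [nsmul_sub, h1, smul_smul (s ^ b) (s ^ m) k, ← pow_add, sub_self]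
  -- Bezout
  have hcop : Nat.Coprime E (s ^ m) := Nat.Coprime.pow_right m
    ((Nat.Prime.coprime_iff_not_dvd hs).mpr hE).symm
  obtain ⟨z, hzK, hz⟩ : ∃ z ∈ K, s ^ m • z = x := by
    exact ⟨_, AddSubgroup.add_mem _ (AddSubgroup.zsmul_mem _ hkK _)
      (AddSubgroup.zsmul_mem _ hx _), bezout_aux hcop hEx⟩
  refine ⟨z, fun σ hσ => ?_, hz⟩
  have h1 : σ • z - z ∈ K := by
    rw [hKr] at hzK ⊢
    exact AddSubgroup.sub_mem _ (ker_gal r hℓ hA hN hσ hzK) hzK
  have h2 : (s ^ m) • (σ • z - z) = 0 := by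
    have h3 : (s ^ m) • (σ • z) = σ • x := by
      rw [← hz]
      exact (map_nsmul (DistribSMul.toAddMonoidHom (JZero N) σ) (s ^ m) z).symm
    rw [nsmul_sub, h3, hz, hfix σ hσ, sub_self]
  rw [← sub_eq_zero]
  exact hinj m _ h1 h2

end Fermat.Agent.MazHS
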