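import Fermat.Agent.MazFF.Final
import Fermat.Agent.MazurP.HeckeRed

/-!
# HSTAB: Hecke stability of the kernel of reduction
-/

set_option autoImplicit false
set_option linter.unusedSectionVars false
set_option synthInstance.maxHeartbeats 400000
set_option maxHeartbeats 400000

noncomputable section

namespace Fermat.Agent.MazHS

open ModularCurve AlgebraicCurve Fermat.Agent.Curves Fermat.Agent.GoodRed IsLocalRing
open Fermat.Agent.AnJac Fermat.Agent.S37 Fermat.Agent.MazFF Fermat.Agent.SSMod Fermat.Agent.MazurP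
open Fermat.Agent.HeckeQ
open scoped Pointwise

local notation "Qbar" => AlgebraicClosure ℚ
local notation "GQ" => Qbar ≃ₐ[ℚ] Qbar

section TK

variable {κ : Type*} [Field κ] [IsAlgClosed κ] {s N : ℕ} [NeZero s] [NeZero N]
  [IsFunctionField κ (modularFunctionFieldFullC κ N)]
  [IsFunctionField κ (modularFunctionFieldFullC κ (s * N))]

variable (κ s N) in
/-- the Hecke correspondence over `κ` -/
def tK : Divisor κ (modularFunctionFieldFullC κ N) →+ Divisor κ (modularFunctionFieldFullC κ N) :=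
  (Divisor.pushforwardAlong (alpha κ s N) (integralAlong _)).comp
    (Divisor.pullbackAlong (beta κ s N) (integralAlong _))

theorem tK_posDeg : ∃ c : ℤ, PosDeg (tK κ s N) c :=
  ⟨_, (pullbackAlong_posDeg (beta κ s N) (integralAlong _)).comp
    (pushforwardAlong_posDeg (alpha κ s N) (integralAlong _))⟩

theorem tK_divisorOf {f : modularFunctionFieldFullC κ N} (hf : f ≠ 0) :
    tK κ s N (divisorOf f) = divisorOf (letI := algebraAlong (alpha κ s N);
      Algebra.norm (modularFunctionFieldFullC κ N) (beta κ s N f)) := by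
  rw [tK, AddMonoidHom.comp_apply, pullbackAlong_divisorOf, pushforwardAlong_divisorOf]
  rwa [Ne, map_eq_zero]

end TK

section Red

variable {N : ℕ} [NeZero N] {A : ValuationSubring Qbar}
  [IsFunctionField (ResidueField A) (modularFunctionFieldFullC (ResidueField A) N)]
  (r : RedMap A N N)

theorem stab_fun {ℓ : ℕ} (hℓ : ℓ.Prime) (hA : A.LiesOverPrime ℓ) (hN : ¬ ℓ ∣ N) {s : ℕ}
    [hs : Fact s.Prime] (hsℓ : s ≠ ℓ) (hsN : ¬ s ∣ N)
    [IsFunctionField (ResidueField A) (modularFunctionFieldFullC (ResidueField A) (s * N))]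
    {f : modularFunctionFieldBar N} (hf : f ≠ 0) :
    r.R (heckeDiv Qbar N s (divisorOf f)) =
      tK (ResidueField A) s N (r.R (divisorOf f)) := by
  obtain ⟨g, gb, hg, hgb, hdiv, hLR⟩ := RedMap.exists_scale hℓ hA hN hf
  rw [hdiv]
  have hsκ : (s : ResidueField A) ≠ 0 := residue_ne_zero hℓ hA (fun h =>
    hsℓ ((Nat.prime_dvd_prime_iff_eq hℓ hs.out).mp h).symm)
  have hNκ : (N : ResidueField A) ≠ 0 := residue_ne_zero hℓ hA hN
  haveI : HasPrim (ResidueField A) s := hasPrim_alg hs.out.ne_zero hsκ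
  obtain ⟨v, hv, hvdiv⟩ := heckeDiv_divisorOf (ℓ := s) hsN hg
  have hincl : IntermediateField.inclusion r.hle gb = gb := Subtype.ext rfl
  have h1 := norm_κ (residue A) (r := s) (M := N) residue_surjective (rankOne_Qbar hℓ hA) hs.out
    hsN hsκ hNκ gb
  rw [hvdiv, r.spec' hLR hgb, hincl, tK_divisorOf hgb]
  have h2 := LR_hM (r := s) hs.out hsκ hLR
  rw [← hv, ← h1] at h2
  refine r.spec v _ h2 ?_
  intro h
  have hgb' : (gb : LaurentSeries (ResidueField A)) ≠ 0 := fun h => hgb (Subtype.ext h)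
  apply hM_ne_zero s hgb'
  rw [← h1, h]
  rfl

theorem stab_ne {ℓ : ℕ} (hℓ : ℓ.Prime) (hA : A.LiesOverPrime ℓ) (hN : ¬ ℓ ∣ N) {s : ℕ}
    [hs : Fact s.Prime] (hsℓ : s ≠ ℓ) (hsN : ¬ s ∣ N)
    [IsFunctionField (ResidueField A) (modularFunctionFieldFullC (ResidueField A) (s * N))]
    {D : Divisor Qbar (modularFunctionFieldBar N)} (hD : Divisor.degree D = 0) :
    r.R (heckeDiv Qbar N s D) = tK (ResidueField A) s N (r.R D) := by
  obtain ⟨c, hc⟩ := heckeDiv_posDeg (N := N) (ℓ := s)
  obtain ⟨c', hc'⟩ := tK_posDeg (κ := ResidueField A) (s := s) (N := N)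
  exact rigid (hc.comp r.posDeg) (r.posDeg.comp hc')
    (fun f hf => stab_fun r hℓ hA hN hsℓ hsN hf) hD

theorem isPrin_iff {k F : Type*} [Field k] [Field F] [Algebra k F] [IsFunctionField k F]
    [IsAlgClosed k] {D : Divisor k F} :
    D ∈ Divisor.principal (K := k) (F := F) ↔ ∃ f : F, f ≠ 0 ∧ D = divisorOf f := by
  constructor
  · rintro ⟨f, hf, h⟩
    exact ⟨f, hf, by ext P; exact h P⟩
  · rintro ⟨f, hf, rfl⟩
    exact ⟨f, hf, fun P => rfl⟩

theorem smul_prin {k F : Type*} [Field k] [Field F] [Algebra k F] [IsFunctionField k F]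
    [IsAlgClosed k] (g : SemilinearAut k F) {D : Divisor k F}
    (hD : D ∈ Divisor.principal (K := k) (F := F)) :
    g • D ∈ Divisor.principal (K := k) (F := F) := by
  obtain ⟨f, hf, rfl⟩ := isPrin_iff.mp hD
  rw [PicFlat.smul_divisorOf']
  exact isPrin_iff.mpr ⟨_, PicFlat.smul_ne_zero' g hf, rfl⟩

theorem stab_prin {ℓ : ℕ} (hℓ : ℓ.Prime) (hA : A.LiesOverPrime ℓ) (hN : ¬ ℓ ∣ N) {s : ℕ}
    [hs : Fact s.Prime] (hsN : ¬ s ∣ N) {D : Divisor Qbar (modularFunctionFieldBar N)}
    (hD : Divisor.degree D = 0)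
    (hp : r.R D ∈ Divisor.principal (K := ResidueField A)
      (F := modularFunctionFieldFullC (ResidueField A) N)) :
    r.R (heckeDiv Qbar N s D) ∈ Divisor.principal (K := ResidueField A)
      (F := modularFunctionFieldFullC (ResidueField A) N) := by
  haveI : Fact ℓ.Prime := ⟨hℓ⟩
  haveI : CharP (ResidueField A) ℓ := FrobDens.charP_residueField A hℓ hA
  by_cases hsℓ : s = ℓ
  · subst hsℓ
    obtain ⟨σ, hσ⟩ := Frob.exists_isFrobeniusAt_Qbar A hℓ hA
    set D' : Divisor Qbar (modularFunctionFieldBar N) := (gact N σ)⁻¹ • D with hD'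
    have hσD : gact N σ • D' = D := smul_inv_smul _ _
    have hdeg : Divisor.degree D' = 0 := by
      rw [hD']
      exact (SemilinearAut.degree_smul _ D).trans hD
    have h1 := r.es hA hN hσ hdeg
    rw [hσD] at h1
    have h2 : r.R D = PhiM (ResidueField A) N s • r.R D' := by
      rw [← RedMap_frob r hA hN hσ hdeg, hσD]
    have h3 : r.R D' ∈ Divisor.principal (K := ResidueField A)
        (F := modularFunctionFieldFullC (ResidueField A) N) := by
      have h4 : r.R D' = (PhiM (ResidueField A) N s)⁻¹ • r.R D := by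
        rw [h2, inv_smul_smul]
      rw [h4]
      exact smul_prin _ hp
    rw [← h1, RedMap_frob r hA hN hσ hD]
    exact AddSubgroup.add_mem _ (smul_prin _ hp) (AddSubgroup.nsmul_mem _ h3 _)
  · have hsκ : (s : ResidueField A) ≠ 0 := residue_ne_zero hℓ hA (fun h =>
      hsℓ ((Nat.prime_dvd_prime_iff_eq hℓ hs.out).mp h).symm)
    have hNκ : (N : ResidueField A) ≠ 0 := residue_ne_zero hℓ hA hN
    haveI : IsFunctionField (ResidueField A)
        (modularFunctionFieldFullC (ResidueField A) (s * N)) :=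
      isFunctionField_fullC (ResidueField A) (s * N) (by
        rw [Nat.cast_mul]; exact mul_ne_zero hsκ hNκ)
    rw [stab_ne r hℓ hA hN hsℓ hsN hD]
    obtain ⟨f, hf, hf'⟩ := isPrin_iff.mp hp
    rw [hf', tK_divisorOf hf]
    refine isPrin_iff.mpr ⟨_, ?_, rfl⟩
    haveI : HasPrim (ResidueField A) s := hasPrim_alg hs.out.ne_zero hsκ
    have h1 := norm_κ (residue A) (r := s) (M := N) residue_surjective (rankOne_Qbar hℓ hA) hs.out
      hsN hsκ hNκ f
    intro h
    have hf' : (f : LaurentSeries (ResidueField A)) ≠ 0 := fun h => hf (Subtype.ext h)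
    apply hM_ne_zero s hf'
    rw [← h1, h]
    rfl

end Red

/-- **HSTAB** -/
theorem heckeStab : Maz.HeckeStab := by
  intro N _ hNp ℓ A K h5 hK s hs hsN x hx
  obtain ⟨hℓ, hA, hN, M, hM, r, -, hMN, rfl⟩ := hK
  obtain rfl := hMN h5
  haveI : Fact s.Prime := ⟨hs⟩
  obtain ⟨D, rfl⟩ := Pic0.mk_surjective x
  have hD : Divisor.degree (D : Divisor Qbar (modularFunctionFieldBar M)) = 0 := D.2
  rw [AddMonoidHom.mem_ker, redHom_mk, QuotientAddGroup.eq_zero_iff] at hx
  have h1 := hecke_mk (N := M) hs D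
  change heckeOperatorBar M ⟨s, hs⟩ (Pic0.mk D) ∈ (redHom r hℓ hA hN).ker
  rw [h1, AddMonoidHom.mem_ker, redHom_mk, QuotientAddGroup.eq_zero_iff]
  exact stab_prin r hℓ hA hN (fun h => hsN ((Nat.prime_dvd_prime_iff_eq hs hNp).mp h)) hD hx

end Fermat.Agent.MazHS
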