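import Fermat.Agent.SSMod.JL
import Fermat.Agent.MazHS.Stab

/-!
# TAMEN: inertia at the level acts unipotently on the torsion of the Jacobian
-/

set_option autoImplicit false
set_option linter.unusedSectionVars false
set_option synthInstance.maxHeartbeats 400000
set_option maxHeartbeats 400000

noncomputable section

namespace Fermat.Agent.MazHS

open ModularCurve AlgebraicCurve Fermat.Agent.Curves Fermat.Agent.GoodRed IsLocalRing
open Fermat.Agent.AnJac Fermat.Agent.S37 Fermat.Agent.HeckeQ Fermat.Agent.SSMod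
open scoped Pointwise

local notation "Qbar" => AlgebraicClosure ℚ
local notation "GQ" => Qbar ≃ₐ[ℚ] Qbar

theorem unip_bar {N n : ℕ} {L : IntermediateField Qbar (LaurentSeries Qbar)}
    (hL : L = modularFunctionFieldFullC Qbar N) {σ : Qbar ≃+* Qbar} (h : UnipAt N n σ)
    (u : L) (hu : u ≠ 0) (hdiv : ∀ P : Place Qbar L, (n : ℤ) ∣ P.ord u) :
    ∃ f : L, coeffMap (σ : Qbar →+* Qbar) (coeffMap (σ : Qbar →+* Qbar) (u : LaurentSeries Qbar)) *
      (u : LaurentSeries Qbar) / coeffMap (σ : Qbar →+* Qbar) (u : LaurentSeries Qbar) ^ 2 =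
        (f : LaurentSeries Qbar) ^ n := by
  subst hL
  obtain ⟨f, hf, he⟩ := h u u.2 (fun h => hu (Subtype.ext h)) hdiv
  exact ⟨⟨f, hf⟩, he⟩

theorem gact_coe' {N : ℕ} (σ : GQ) (u : modularFunctionFieldBar N) :
    ((gact N σ • u : modularFunctionFieldBar N) : LaurentSeries Qbar) =
      coeffMap (((σ : Qbar ≃+* Qbar) : Qbar →+* Qbar)) (u : LaurentSeries Qbar) := rfl

theorem unip_div {N n : ℕ} [NeZero N] (hn : n ≠ 0) {σ : GQ} (h : UnipAt N n (σ : Qbar ≃+* Qbar))
    {u : modularFunctionFieldBar N} (hu : u ≠ 0)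
    {D : Divisor Qbar (modularFunctionFieldBar N)} (hD : n • D = divisorOf u) :
    ∃ f : modularFunctionFieldBar N, f ≠ 0 ∧
      gact N σ • gact N σ • D + D - 2 • (gact N σ • D) = divisorOf f := by
  have hdiv : ∀ P : Place Qbar (modularFunctionFieldBar N), (n : ℤ) ∣ P.ord u := by
    intro P
    refine ⟨D P, ?_⟩
    have h1 := DFunLike.congr_fun hD P
    rw [Finsupp.smul_apply, nsmul_eq_mul] at h1
    exact h1.symm
  obtain ⟨f, hf⟩ := unip_bar (laurentBaseChange_eq Qbar N) h u hu hdiv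
  have h1 : gact N σ • u ≠ 0 := gact_ne_zero σ hu
  have h2 : gact N σ • gact N σ • u ≠ 0 := gact_ne_zero σ h1
  have he : gact N σ • gact N σ • u * u = (gact N σ • u) ^ 2 * f ^ n := by
    apply Subtype.ext
    rw [← gact_coe', ← gact_coe', div_eq_iff] at hf
    · rw [MulMemClass.coe_mul, MulMemClass.coe_mul, SubmonoidClass.coe_pow,
        SubmonoidClass.coe_pow, mul_comm (((gact N σ • u : modularFunctionFieldBar N) :
          LaurentSeries Qbar) ^ 2)]
      exact hf
    · apply pow_ne_zero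
      exact fun h => h1 (Subtype.ext h)
  have hf0 : f ≠ 0 := by
    rintro rfl
    rw [zero_pow hn, mul_zero] at he
    exact mul_ne_zero h2 hu he
  refine ⟨f, hf0, ?_⟩
  have h3 := congrArg (fun g => divisorOf (k := Qbar) g) he
  rw [divisorOf_mul h2 hu, divisorOf_mul (pow_ne_zero 2 h1) (pow_ne_zero n hf0), divisorOf_pow,
    divisorOf_pow, ← smul_divisorOf, ← smul_divisorOf, ← hD] at h3
  have h4 : ∀ E : Divisor Qbar (modularFunctionFieldBar N),
      gact N σ • (n • E) = n • (gact N σ • E) := fun E =>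
    map_nsmul (DistribSMul.toAddMonoidHom _ (gact N σ)) n E
  rw [h4, h4] at h3
  have h5 : n • (gact N σ • gact N σ • D + D - 2 • (gact N σ • D)) = n • divisorOf f := by
    rw [nsmul_sub, nsmul_add, h3, smul_comm n 2]
    abel
  ext P
  have h6 := DFunLike.congr_fun h5 P
  rw [Finsupp.smul_apply, Finsupp.smul_apply, nsmul_eq_mul, nsmul_eq_mul] at h6
  exact mul_left_cancel₀ (by exact_mod_cast hn) h6

/-- **TAMEN** -/
theorem tameN : Maz.TameN := by
  intro N _ hN r hr hrN A hA σ hσ k x hx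
  obtain ⟨D, rfl⟩ := Pic0.mk_surjective x
  have h1 : (r ^ k • D : Divisor.degZero (K := Qbar) (F := modularFunctionFieldBar N)) ∈
      (Divisor.principal (K := Qbar) (F := modularFunctionFieldBar N)).addSubgroupOf
        (Divisor.degZero (K := Qbar) (F := modularFunctionFieldBar N)) :=
    (QuotientAddGroup.eq_zero_iff _).1 hx
  rw [AddSubgroup.mem_addSubgroupOf] at h1
  obtain ⟨u, hu0, hu⟩ := h1
  have hD : r ^ k • (D : Divisor Qbar (modularFunctionFieldBar N)) = divisorOf u := by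
    ext P
    exact hu P
  have hn : ¬ N ∣ r ^ k := fun h =>
    hrN ((Nat.prime_dvd_prime_iff_eq hN hr).mp (hN.dvd_of_dvd_pow h)).symm
  have h2 : UnipAt (N * 1) (r ^ k) (σ : Qbar ≃+* Qbar) :=
    unipAt_all jl23 hN hA (M := 1) (fun h => hN.one_lt.ne' (Nat.dvd_one.mp h)) hn hσ
  rw [mul_one] at h2
  obtain ⟨f, hf0, hf⟩ := unip_div (pow_ne_zero k hr.ne_zero) h2 hu0 hD
  rw [← sub_eq_zero]
  have h3 : (σ • σ • (Pic0.mk D : JZero N) + Pic0.mk D - 2 • (σ • (Pic0.mk D : JZero N))) =
      Pic0.mk (⟨gact N σ • gact N σ • (D : Divisor Qbar (modularFunctionFieldBar N)),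
        SemilinearAut.smul_mem_degZero _ (SemilinearAut.smul_mem_degZero _ D.2)⟩ + D -
        2 • ⟨gact N σ • (D : Divisor Qbar (modularFunctionFieldBar N)),
          SemilinearAut.smul_mem_degZero _ D.2⟩) := rfl
  rw [h3]
  refine (QuotientAddGroup.eq_zero_iff _).2 ?_
  rw [AddSubgroup.mem_addSubgroupOf]
  refine ⟨f, hf0, fun P => ?_⟩
  exact DFunLike.congr_fun hf P

end Fermat.Agent.MazHS
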