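import Fermat.Agent.MazHS.Stab

/-!
# LOCDIV: local divisibility of the kernel of reduction
-/

set_option autoImplicit false
set_option linter.unusedSectionVars false
set_option synthInstance.maxHeartbeats 400000
set_option maxHeartbeats 400000

noncomputable section

namespace Fermat.Agent.MazHS

open ModularCurve AlgebraicCurve Fermat.Agent.Curves Fermat.Agent.GoodRed IsLocalRing
open Fermat.Agent.AnJac Fermat.Agent.S37 Fermat.Agent.MazFF Fermat.Agent.HeckeQ
open scoped Pointwise

local notation "Qbar" => AlgebraicClosure ℚ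
local notation "GQ" => Qbar ≃ₐ[ℚ] Qbar

/-- the semilinear automorphism of `F_M` attached to an automorphism of the coefficients -/
def galS (κ : Type*) [Field κ] (M : ℕ) (τ : κ ≃+* κ) :
    SemilinearAut κ (modularFunctionFieldFullC κ M) :=
  ⟨(galF M τ, τ), fun a => galF_const _ a⟩

theorem galS_coe {κ : Type*} [Field κ] (M : ℕ) (τ : κ ≃+* κ) (f : modularFunctionFieldFullC κ M) :
    ((galS κ M τ • f : modularFunctionFieldFullC κ M) : LaurentSeries κ) =
      coeffMap (τ : κ →+* κ) (f : LaurentSeries κ) := coe_galF _ _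

variable {N : ℕ} [NeZero N] {A : ValuationSubring Qbar} {M : ℕ}
  [IsFunctionField (ResidueField A) (modularFunctionFieldFullC (ResidueField A) M)]
  (r : RedMap A N M)

theorem inclusion_gal (τ : ResidueField A ≃+* ResidueField A)
    (gb gb' : modularFunctionFieldFullC (ResidueField A) N)
    (h : (gb' : LaurentSeries (ResidueField A)) =
      coeffMap (τ : ResidueField A →+* ResidueField A) (gb : LaurentSeries (ResidueField A))) :
    IntermediateField.inclusion r.hle gb' =
      galS (ResidueField A) M τ • IntermediateField.inclusion r.hle gb := by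
  apply Subtype.ext
  rw [galS_coe]
  exact h

omit [NeZero N] in
theorem LR_gal {σ : GQ} (hσ : σ ∈ A.decompositionSubgroup ℚ) {g : modularFunctionFieldBar N}
    {gb : modularFunctionFieldFullC (ResidueField A) N}
    (hLR : LR (residue A) (g : LaurentSeries Qbar) (gb : LaurentSeries (ResidueField A))) :
    LR (residue A) ((gact N σ • g : modularFunctionFieldBar N) : LaurentSeries Qbar)
      ((galS (ResidueField A) N (actK σ hσ) • gb :
        modularFunctionFieldFullC (ResidueField A) N) : LaurentSeries (ResidueField A)) := by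
  have h4 : Rd A (coeffMap (σ : Qbar →+* Qbar) (g : LaurentSeries Qbar))
    (coeffMap (actK σ hσ : _ →+* ResidueField A)
      (gb : LaurentSeries (ResidueField A))) := Rd.gal hLR σ hσ
  rw [galS_coe]
  exact h4

theorem gal_div_aux {σ : GQ} (hσ : σ ∈ A.decompositionSubgroup ℚ)
    (gb : modularFunctionFieldFullC (ResidueField A) N) :
    divisorOf (k := ResidueField A) (IntermediateField.inclusion r.hle
      (galS (ResidueField A) N (actK σ hσ) • gb)) =
    galS (ResidueField A) M (actK σ hσ) • divisorOf (IntermediateField.inclusion r.hle gb) := by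
  rw [inclusion_gal r (actK σ hσ) gb _ (galS_coe _ _ _)]
  exact (GoodRed.smul_divisorOf _ _).symm

theorem gal_div {σ : GQ} (hσ : σ ∈ A.decompositionSubgroup ℚ) {f g : modularFunctionFieldBar N}
    {gb : modularFunctionFieldFullC (ResidueField A) N} (hgb : gb ≠ 0)
    (hdiv : divisorOf (k := Qbar) f = divisorOf g)
    (hLR : LR (residue A) (g : LaurentSeries Qbar) (gb : LaurentSeries (ResidueField A))) :
    r.R (gact N σ • divisorOf f) =
      galS (ResidueField A) M (actK σ hσ) • r.R (divisorOf f) := by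
  have h3 := LR_gal hσ hLR
  have hfr0 : galS (ResidueField A) N (actK σ hσ) • gb ≠ 0 := by
    rw [SemilinearAut.smul_def]
    exact (map_ne_zero_iff _ (RingEquiv.injective _)).mpr hgb
  rw [hdiv, GoodRed.smul_divisorOf]
  rw [r.spec' h3 hfr0]
  rw [r.spec' hLR hgb]
  exact gal_div_aux r hσ gb

/-- the decomposition group acts semilinearly on reductions -/
theorem RedMap_gal {ℓ : ℕ} (hℓ : ℓ.Prime) (hA : A.LiesOverPrime ℓ) (hN : ¬ ℓ ∣ N) {σ : GQ}
    (hσ : σ ∈ A.decompositionSubgroup ℚ) {D : Divisor Qbar (modularFunctionFieldBar N)}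
    (hD : Divisor.degree D = 0) :
    r.R (gact N σ • D) = galS (ResidueField A) M (actK σ hσ) • r.R D := by
  refine rigid_smul r.posDeg (gact N σ) (galS (ResidueField A) M (actK σ hσ)) (fun f hf => ?_) hD
  obtain ⟨g, gb, hg, hgb, hdiv, hLR⟩ := RedMap.exists_scale hℓ hA hN hf
  exact gal_div r hσ hgb hdiv hLR

/-- the kernel of reduction is stable under the decomposition group -/
theorem ker_gal {ℓ : ℕ} (hℓ : ℓ.Prime) (hA : A.LiesOverPrime ℓ) (hN : ¬ ℓ ∣ N) {σ : GQ}
    (hσ : σ ∈ A.decompositionSubgroup ℚ) {x : JZero N} (hx : x ∈ (redHom r hℓ hA hN).ker) :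
    σ • x ∈ (redHom r hℓ hA hN).ker := by
  obtain ⟨D, rfl⟩ := Pic0.mk_surjective x
  have hD : Divisor.degree (D : Divisor Qbar (modularFunctionFieldBar N)) = 0 := D.2
  rw [AddMonoidHom.mem_ker, redHom_mk, QuotientAddGroup.eq_zero_iff] at hx
  rw [AddMonoidHom.mem_ker, gal_mk, redHom_mk]
  change (QuotientAddGroup.mk (r.R (gact N σ • (D : Divisor Qbar (modularFunctionFieldBar N)))) :
    (Divisor (ResidueField A) (modularFunctionFieldFullC (ResidueField A) M) ⧸ _)) = _
  rw [RedMap_gal r hℓ hA hN hσ hD]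
  exact (QuotientAddGroup.eq_zero_iff _).mpr (smul_prin _ hx)

/-- **[DIVK]**: the kernel of reduction is divisible by integers prime to the residue
characteristic -/
def DivK : Prop := ∀ (N : ℕ) [NeZero N] (ℓ : ℕ) (A : ValuationSubring Qbar)
  (K : AddSubgroup (JZero N)), Maz.IsRedKer N ℓ A K → ∀ n : ℕ, ¬ ℓ ∣ n → ∀ x ∈ K,
    ∃ y ∈ K, n • y = x

/-- **LOCDIV** -/
theorem locDiv_of (h : DivK) : Maz.LocDiv := by
  intro N _ ℓ A K hK s hs hsℓ P Q x _ hx hfix m
  have hK' := hK
  obtain ⟨hℓ, hA, hN, M, hM, r, -, -, rfl⟩ := hK'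
  have hdvd : ¬ ℓ ∣ s ^ m := fun h1 => hsℓ
    ((Nat.prime_dvd_prime_iff_eq hℓ hs).mp (hℓ.dvd_of_dvd_pow h1)).symm
  obtain ⟨y, hy, hyx⟩ := h N ℓ A _ hK (s ^ m) hdvd x hx
  refine ⟨y, fun σ hσ => ?_, hyx⟩
  have h1 : σ • y - y ∈ (redHom r hℓ hA hN).ker :=
    AddSubgroup.sub_mem _ (ker_gal r hℓ hA hN hσ hy) hy
  have h2 : (s ^ m) • (σ • y - y) = 0 := by
    have h3 : (s ^ m) • (σ • y) = σ • x := by
      rw [← hyx]
      exact (map_nsmul (DistribSMul.toAddMonoidHom (JZero N) σ) (s ^ m) y).symm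
    rw [nsmul_sub, h3, hyx]
    rw [hfix σ hσ, sub_self]
  rw [← sub_eq_zero]
  exact redHom_inj r hℓ hA hN hdvd h2 h1

end Fermat.Agent.MazHS
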